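import Fermat.Agent.S24.FF.RiemannHurwitz
import Fermat.Agent.S24.Local.Approx
import Fermat.Prelude.Def_AlgebraicCurve_Repartitions
import Fermat.Prelude.Def_AlgebraicCurve_IsCurveOver

/-!
# S27: shared definitions

`ell`, `hh1` (dimensions of `L(D)`, `H¹(D)`), `sumPts`, `cls` (class in `Pic⁰` of a divisor, junk `0`
if the degree is not `0`), `val` (value of a function at a place), `evalOP` (value in `K ∪ {∞}`),
the topology on `Place ℂ F`, analytic charts `Chart v` and the chart map `chartMap`.
-/

set_option autoImplicit false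

noncomputable section

universe u v

namespace Fermat.Agent.S27

open AlgebraicCurve Fermat.Agent.S24.FF Topology Filter Polynomial TensorProduct
open scoped Polynomial.Bivariate

variable {K F : Type*} [Field K] [Field F] [Algebra K F]

/-- `l(D) = dim_K L(D)`. -/
def ell (D : Divisor K F) : ℕ := Module.finrank K (riemannRochSpace D)

/-- `h¹(D) = dim_K A/(A(D)+F)`. -/
def hh1 (D : Divisor K F) : ℕ := Module.finrank K (H1 D)

/-- the divisor `P₀ + ... + P_{n-1}`. -/
def sumPts {n : ℕ} (P : Fin n → Place K F) : Divisor K F := ∑ i, Finsupp.single (P i) 1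

open Classical in
/-- the class in `Pic⁰` of a divisor of degree `0` (junk value `0` otherwise). -/
def cls (D : Divisor K F) : Pic0 K F :=
  if h : D ∈ Divisor.degZero (K := K) (F := F) then Pic0.mk ⟨D, h⟩ else 0

open Classical in
/-- the value `f(v) ∈ K` of `f` at the place `v` (junk value `0` if there is no value). -/
def val (v : Place K F) (f : F) : K :=
  if h : ∃ c : K, f = algebraMap K F c ∨ 0 < v.ord (f - algebraMap K F c) then h.choose else 0

open Classical in
/-- the value of `f` at `v` in `K ∪ {∞}`. -/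
def evalOP (v : Place K F) (f : F) : OnePoint K :=
  if 0 ≤ v.ord f then ((val v f : K) : OnePoint K) else OnePoint.infty

/-- the topology on the set of places of `F/ℂ`: the coarsest one making all
`v ↦ f(v) ∈ ℂ ∪ {∞}` continuous. -/
instance instTopologicalSpacePlace {F : Type*} [Field F] [Algebra ℂ F] :
    TopologicalSpace (Place ℂ F) :=
  TopologicalSpace.induced (fun (v : Place ℂ F) (f : F) => evalOP v f) inferInstance

/-- An analytic chart at the place `v` of `F/ℂ`: a family of places `w τ` (`τ` near `0`) with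
`w 0 = v`, `t - τ` a uniformiser at `w τ`, such that every `f ∈ O_v` is analytic in `τ`. -/
structure Chart {F : Type*} [Field F] [Algebra ℂ F] (v : Place ℂ F) where
  /-- the local coordinate -/
  t : F
  /-- the family of places -/
  w : ℂ → Place ℂ F
  w_zero : w 0 = v
  ord_t : ∀ᶠ τ in 𝓝 (0 : ℂ), (w τ).ord (t - algebraMap ℂ F τ) = 1
  holo : ∀ f : F, 0 ≤ v.ord f → ∃ fh : ℂ → ℂ, AnalyticAt ℂ fh 0 ∧
    ∀ᶠ τ in 𝓝 (0 : ℂ), 0 ≤ (w τ).ord f ∧ val (w τ) f = fh τ
  cont : ContinuousAt w 0

/-- the map `u ↦ [∑ w_i(u_i) - ∑ P_i] ∈ Pic⁰`. -/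
def chartMap {F : Type*} [Field F] [Algebra ℂ F] {n : ℕ} {P : Fin n → Place ℂ F}
    (c : ∀ i, Chart (P i)) (u : Fin n → ℂ) : Pic0 ℂ F :=
  cls (sumPts (fun i => (c i).w (u i)) - sumPts P)

/-- a plane model `F = K(x,y)`, `p(x,y) = 0`, `p` generating the ideal of relations,
`p_Y(x,y) ≠ 0`. -/
structure PlaneModel (K F : Type*) [Field K] [Field F] [Algebra K F] where
  x : F
  y : F
  p : K[X][Y]
  hx : Transcendental K x
  gen : IntermediateField.adjoin K {x, y} = ⊤
  root : p.aevalAeval x y = 0
  ker : ∀ q : K[X][Y], q.aevalAeval x y = 0 → p ∣ q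
  sep : (derivative p).aevalAeval x y ≠ 0

/-- the natural map `Fk ⊗[k] K → F`. -/
def constExtMap (k K Fk F : Type*) [Field k] [Field K] [Field Fk] [Field F]
    [Algebra k K] [Algebra k Fk] [Algebra K F] [Algebra Fk F] [Algebra k F]
    [IsScalarTower k K F] [IsScalarTower k Fk F] : Fk ⊗[k] K →ₐ[k] F :=
  Algebra.TensorProduct.productMap (IsScalarTower.toAlgHom k Fk F) (IsScalarTower.toAlgHom k K F)

/-- `F/K` is the constant field extension of `Fk/k`: `F = Frac (Fk ⊗[k] K)`. -/
structure IsConstExt (k K Fk F : Type*) [Field k] [Field K] [Field Fk] [Field F]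
    [Algebra k K] [Algebra k Fk] [Algebra K F] [Algebra Fk F] [Algebra k F]
    [IsScalarTower k K F] [IsScalarTower k Fk F] : Prop where
  inj : Function.Injective (constExtMap k K Fk F)
  gen : ∀ z : F, ∃ a b : Fk ⊗[k] K, constExtMap k K Fk F b ≠ 0 ∧
    z * constExtMap k K Fk F b = constExtMap k K Fk F a

/-- a model of `F/K` over a countable algebraically closed subfield `k ⊆ K`. -/
structure DescentData (K : Type u) (F : Type v) [Field K] [Field F] [Algebra K F] where
  k : Type u
  Fk : Type v
  [fieldk : Field k]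
  [fieldFk : Field Fk]
  [algkK : Algebra k K]
  [algkFk : Algebra k Fk]
  [algFkF : Algebra Fk F]
  [algkF : Algebra k F]
  [tower₁ : IsScalarTower k K F]
  [tower₂ : IsScalarTower k Fk F]
  [algClosed : IsAlgClosed k]
  [charZero : CharZero k]
  [countable : Countable k]
  [ff1 : IsFF1 k Fk]
  isConstExt : IsConstExt k K Fk F

attribute [instance] DescentData.fieldk DescentData.fieldFk DescentData.algkK DescentData.algkFk
  DescentData.algFkF DescentData.algkF DescentData.tower₁ DescentData.tower₂
  DescentData.algClosed DescentData.charZero DescentData.countable DescentData.ff1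

end Fermat.Agent.S27
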